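import Fermat.Agent.S21.MaxPrinciple

set_option autoImplicit false

open UpperHalfPlane hiding I
open Complex Filter Function Matrix.SpecialLinearGroup CongruenceSubgroup
open scoped Manifold Topology Real MatrixGroups ModularForm Pointwise ComplexConjugate
open Fermat.Agent.S22

namespace Fermat.Agent.S21

theorem periodic_iff {G : ℍ → ℂ} {h : ℝ} :
    Periodic (G ∘ ofComplex) h ↔ ∀ z : ℍ, G (h +ᵥ z) = G z := by
  constructor
  · intro hp z
    have := hp (z : ℂ)
    have h1 : ((z : ℂ) + h) = ((h +ᵥ z : ℍ) : ℂ) := by rw [coe_vadd, add_comm]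
    rw [h1] at this
    simp only [Function.comp_apply, ofComplex_apply] at this
    exact this
  · intro hp w
    by_cases hw : 0 < w.im
    · have hw' : 0 < (w + h).im := by simpa using hw
      simp only [Function.comp_apply, ofComplex_apply_of_im_pos hw, ofComplex_apply_of_im_pos hw']
      rw [← hp ⟨w, hw⟩]
      congr 1
      ext
      simp [add_comm]
    · have hw1 : w.im ≤ 0 := not_lt.mp hw
      have hw' : (w + h).im ≤ 0 := by simpa using hw1
      simp only [Function.comp_apply]
      rw [ofComplex_apply_eq_of_im_nonpos hw' hw1]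

/-- the anti-holomorphic involution turned holomorphic: `z ↦ conj (G (-conj z))`. -/
noncomputable def dag (G : ℍ → ℂ) : ℍ → ℂ := fun z => conj (G (J • z))

theorem dag_eq_slash (G : ℍ → ℂ) : dag G = G ∣[(0 : ℤ)] J := by
  funext z
  simp [dag, ModularForm.slash_apply]

theorem mdiff_dag {G : ℍ → ℂ} (hG : MDiff G) : MDiff (dag G) := by
  rw [dag_eq_slash]
  exact hG.slash 0 J

theorem J_smul_J_smul (z : ℍ) : J • J • z = z := by
  rw [← mul_smul, ← sq, J_sq, one_smul]

theorem J_smul_vadd (h : ℝ) (z : ℍ) : J • (h +ᵥ z) = (-h) +ᵥ (J • z) := by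
  ext
  rw [coe_J_smul, coe_vadd, coe_vadd, coe_J_smul]
  simp
  ring

theorem im_J_smul (z : ℍ) : (J • z).im = z.im := by
  have := congrArg Complex.im (coe_J_smul z)
  simpa using this

theorem tendsto_J_smul : Tendsto (fun z : ℍ => J • z) atImInfty atImInfty := by
  rw [atImInfty, tendsto_comap_iff]
  have : (UpperHalfPlane.im ∘ fun w : ℍ => J • w) = UpperHalfPlane.im := by
    funext w; exact im_J_smul w
  rw [this]
  exact tendsto_comap

theorem J_smul_sl_smul (γ : SL(2, ℤ)) (z : ℍ) :
    J • (γ • z) = (ModularCurve.Period.jConjSL γ) • (J • z) := by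
  rw [sl_smul_eq, sl_smul_eq, ← mul_smul, ← mul_smul]
  congr 1
  ext i j
  fin_cases i <;> fin_cases j <;>
    simp [Matrix.mul_apply, Fin.sum_univ_two, ModularCurve.Period.jConjMat]

theorem good_dag {h : ℝ} {G : ℍ → ℂ} (hG : Good h G) : Good h (dag G) where
  pos := hG.pos
  per := by
    rw [periodic_iff]
    intro z
    have hp := periodic_iff.mp hG.per
    simp only [Fermat.Agent.S21.dag]
    rw [J_smul_vadd]
    have := hp ((-h) +ᵥ (J • z))
    rw [← add_vadd, add_neg_cancel, zero_vadd] at this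
    rw [this]
  hol := mdiff_dag hG.hol
  zero := by
    have h1 : Tendsto (fun z : ℍ => G (J • z)) atImInfty (𝓝 0) := hG.zero.comp tendsto_J_smul
    have h2 := (Complex.continuous_conj.tendsto 0).comp h1
    rw [map_zero] at h2
    exact h2

/-- exponentials of good functions. -/
theorem exp_good {h : ℝ} {G₁ G₂ : ℍ → ℂ} (h₁ : Good h G₁) (h₂ : Good h G₂) (c c' K : ℂ) :
    Periodic ((fun z : ℍ => cexp (c * G₁ z + c' * G₂ z + K)) ∘ ofComplex) h ∧
    MDiff (fun z : ℍ => cexp (c * G₁ z + c' * G₂ z + K)) ∧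
    IsBoundedAtImInfty (fun z : ℍ => cexp (c * G₁ z + c' * G₂ z + K)) := by
  refine ⟨?_, ?_, ?_⟩
  · rw [periodic_iff]
    intro z
    rw [periodic_iff.mp h₁.per, periodic_iff.mp h₂.per]
  · rw [UpperHalfPlane.mdifferentiable_iff]
    have e1 := UpperHalfPlane.mdifferentiable_iff.mp h₁.hol
    have e2 := UpperHalfPlane.mdifferentiable_iff.mp h₂.hol
    exact (((e1.const_mul c).add (e2.const_mul c')).add_const K).cexp
  · have t1 : Tendsto (fun z : ℍ => c * G₁ z + c' * G₂ z + K) atImInfty (𝓝 (c * 0 + c' * 0 + K)) :=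
      ((h₁.zero.const_mul c).add (h₂.zero.const_mul c')).add_const K
    have t2 := (Complex.continuous_exp.tendsto _).comp t1
    exact t2.isBigO_one ℝ

variable {N : ℕ} [NeZero N]

theorem exists_uniform_period (N : ℕ) [NeZero N] : ∃ M : ℕ, 0 < M ∧
    ∀ (f : CuspForm (Gamma0 N) 2) (γ : SL(2, ℤ)), Good M ((f : ℍ → ℂ) ∣[(2 : ℤ)] (mapGL ℝ γ)) := by
  obtain ⟨M, hM, hper⟩ := Subgroup.IsArithmetic.exists_nat_mem_strictPeriods_conj
    ((CongruenceSubgroup.Gamma0 N : Subgroup SL(2, ℤ)) : Subgroup (GL (Fin 2) ℝ))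
  refine ⟨M, hM, fun f γ => ⟨by exact_mod_cast hM, ?_, ?_, ?_⟩⟩
  · have h1 := hper γ⁻¹
    rw [map_inv] at h1
    exact SlashInvariantFormClass.periodic_comp_ofComplex (CuspForm.translate f (mapGL ℝ γ)) h1
  · exact (CuspFormClass.holo f).slash 2 _
  · exact CuspFormClass.zero_at_infty_slash f γ

theorem prim_sl_smul (f : CuspForm (Gamma0 N) 2) (δ : SL(2, ℤ)) :
    ∃ K : ℂ, ∀ z : ℍ, prim f (δ • z) = prim ((f : ℍ → ℂ) ∣[(2 : ℤ)] (mapGL ℝ δ)) z + K := by
  refine ⟨prim f (δ • UpperHalfPlane.I)
        - prim ((f : ℍ → ℂ) ∣[(2 : ℤ)] (mapGL ℝ δ)) UpperHalfPlane.I, fun w => ?_⟩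
  have := prim_smul_sub (f := (f : ℍ → ℂ)) (det_mapGL_pos δ) (tower_cuspForm f 1)
      (tower_slash f δ 1) w UpperHalfPlane.I
  rw [sl_smul_eq, sl_smul_eq]
  linear_combination this

/-- the key analytic statement: a relation between holomorphic and antiholomorphic periods
forces the primitives to be constant. -/
theorem psi_const (a b : CuspForm (Gamma0 N) 2)
    (hab : ∀ γ : Gamma0 N, ModularCurve.periodMap N a (Additive.ofMul γ)
      + ModularCurve.periodMap N b (Additive.ofMul (ModularCurve.Period.jConjGamma0 N γ)) = 0)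
    (c : ℂ) (z w : ℍ) :
    c * prim a z + conj c * dag (prim b) z = c * prim a w + conj c * dag (prim b) w := by
  obtain ⟨M, hM, hgood⟩ := exists_uniform_period N
  have hMR : (0 : ℝ) < (M : ℝ) := by exact_mod_cast hM
  set Ψ : ℍ → ℂ := fun z => c * prim a z + conj c * dag (prim b) z with hΨ
  have hform : ∀ δ : SL(2, ℤ), ∃ G₁ G₂ : ℍ → ℂ, ∃ K : ℂ, Good M G₁ ∧ Good M G₂ ∧
      ∀ z : ℍ, Ψ (δ • z) = c * G₁ z + conj c * G₂ z + K := by
    intro δ
    obtain ⟨K₁, hK₁⟩ := prim_sl_smul a δ
    obtain ⟨K₂, hK₂⟩ := prim_sl_smul b (ModularCurve.Period.jConjSL δ)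
    refine ⟨_, _, c * K₁ + conj c * conj K₂, (hgood a δ).prim,
      good_dag ((hgood b (ModularCurve.Period.jConjSL δ)).prim), fun z => ?_⟩
    simp only [hΨ, dag]
    rw [hK₁, J_smul_sl_smul, hK₂, map_add]
    ring
  have hE := const_of_norm_invariant (Gamma0 N) (fun z => cexp (Ψ z)) (by
      intro γ hγ z
      rw [Complex.norm_exp, Complex.norm_exp]
      congr 1
      have h1 := hab ⟨γ, hγ⟩
      rw [periodMap_apply, periodMap_apply] at h1
      have h2 := prim_Gamma0_sub a hγ z UpperHalfPlane.I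
      have h3 := prim_Gamma0_sub b (ModularCurve.Period.jConjSL_mem_Gamma0 hγ) (J • z)
        UpperHalfPlane.I
      simp only [ModularCurve.Period.jConjGamma0_coe] at h1
      set p := prim b (ModularCurve.Period.jConjSL γ • UpperHalfPlane.I) - prim b UpperHalfPlane.I
        with hp
      have h4 : Ψ (γ • z) - Ψ z = - (c * p) + conj (c * p) := by
        simp only [hΨ, dag]
        rw [J_smul_sl_smul, map_mul]
        have h5 : prim b (ModularCurve.Period.jConjSL γ • J • z) = prim b (J • z) + p := by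
          linear_combination h3
        have h6 : prim a (γ • z) = prim a z - p := by
          linear_combination h2 + h1
        rw [h5, h6, map_add]
        ring
      have h7 : (Ψ (γ • z) - Ψ z).re = 0 := by
        rw [h4]; simp
      rw [Complex.sub_re] at h7
      linarith) hMR
    (by
      intro δ
      obtain ⟨G₁, G₂, K, h₁, h₂, h⟩ := hform δ
      simp only [h]
      exact (exp_good h₁ h₂ c (conj c) K).1)
    (by
      intro δ
      obtain ⟨G₁, G₂, K, h₁, h₂, h⟩ := hform δ
      simp only [h]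
      exact (exp_good h₁ h₂ c (conj c) K).2.1)
    (by
      intro δ
      obtain ⟨G₁, G₂, K, h₁, h₂, h⟩ := hform δ
      simp only [h]
      exact (exp_good h₁ h₂ c (conj c) K).2.2)
  -- `Ψ` is holomorphic with vanishing derivative
  have hΨhol : MDiff Ψ := by
    have e1 : MDiff (prim a) := (tower_cuspForm a 1).isPrim.mdiff
    have e2 : MDiff (dag (prim b)) := mdiff_dag (tower_cuspForm b 1).isPrim.mdiff
    rw [UpperHalfPlane.mdifferentiable_iff] at e1 e2 ⊢
    exact (e1.const_mul c).add (e2.const_mul (conj c))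
  apply const_of_hasDerivAt_zero (D := Ψ)
  intro u
  have hd : DifferentiableAt ℂ (Ψ ∘ ofComplex) (u : ℂ) :=
    (UpperHalfPlane.mdifferentiable_iff.mp hΨhol).differentiableAt
      (isOpen_upperHalfPlaneSet'.mem_nhds u.2)
  have h1 := hd.hasDerivAt.cexp
  have h2 : HasDerivAt (fun x : ℂ => cexp ((Ψ ∘ ofComplex) x)) 0 (u : ℂ) := by
    have : (fun x : ℂ => cexp ((Ψ ∘ ofComplex) x)) = fun _ => cexp (Ψ u) := by
      funext x
      exact hE _ _
    rw [this]
    exact hasDerivAt_const _ _
  have h3 := h1.unique h2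
  have h4 : deriv (Ψ ∘ ofComplex) (u : ℂ) = 0 :=
    (mul_eq_zero.mp h3).resolve_left (Complex.exp_ne_zero _)
  rw [← h4]
  exact hd.hasDerivAt

theorem eq_zero_of_prim_const (a : CuspForm (Gamma0 N) 2) (h : ∀ z w : ℍ, prim a z = prim a w) :
    a = 0 := by
  ext z
  have h1 := (tower_cuspForm a 1).isPrim z
  have h2 : HasDerivAt (prim a ∘ ofComplex) 0 (z : ℂ) := by
    have : (prim a ∘ ofComplex) = fun _ => prim a z := by
      funext x; exact h _ _
    rw [this]
    exact hasDerivAt_const _ _
  exact h1.unique h2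

theorem eq_zero_of_periods (a b : CuspForm (Gamma0 N) 2)
    (hab : ∀ γ : Gamma0 N, ModularCurve.periodMap N a (Additive.ofMul γ)
      + ModularCurve.periodMap N b (Additive.ofMul (ModularCurve.Period.jConjGamma0 N γ)) = 0) :
    a = 0 ∧ b = 0 := by
  have h1 := psi_const a b hab 1
  have h2 := psi_const a b hab Complex.I
  simp only [map_one, one_mul, Complex.conj_I] at h1 h2
  constructor
  · apply eq_zero_of_prim_const
    intro z w
    have e1 := h1 z w
    have e2 := h2 z w
    have : (2 * Complex.I) * (prim a z - prim a w) = 0 := by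
      linear_combination Complex.I * e1 + e2
    have h3 := (mul_eq_zero.mp this).resolve_left (by simp)
    exact sub_eq_zero.mp h3
  · apply eq_zero_of_prim_const
    intro z w
    have e1 := h1 (J • z) (J • w)
    have e2 := h2 (J • z) (J • w)
    have : (2 * Complex.I) * (dag (prim b) (J • z) - dag (prim b) (J • w)) = 0 := by
      linear_combination Complex.I * e1 - e2
    have h3 := sub_eq_zero.mp ((mul_eq_zero.mp this).resolve_left (by simp))
    simp only [dag, J_smul_J_smul] at h3
    exact (starRingEnd ℂ).injective h3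

theorem periodHomPair_injective : Function.Injective (ModularCurve.periodHomPair N) := by
  rw [injective_iff_map_eq_zero]
  rintro ⟨f, g⟩ h
  have h1 : ∀ γ : Gamma0 N, ModularCurve.periodMap N (f + g) (Additive.ofMul γ)
      + ModularCurve.periodMap N (f - g)
        (Additive.ofMul (ModularCurve.Period.jConjGamma0 N γ)) = 0 := by
    intro γ
    have h2 := DFunLike.congr_fun h (Additive.ofMul γ)
    rw [periodHomPair_apply] at h2
    have e1 : ModularCurve.periodMap N (f + g) = ModularCurve.periodMap N f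
        + ModularCurve.periodMap N g := (periodLin N).map_add f g
    have e2 : ModularCurve.periodMap N (f - g) = ModularCurve.periodMap N f
        - ModularCurve.periodMap N g := (periodLin N).map_sub f g
    rw [e1, e2, AddMonoidHom.add_apply, AddMonoidHom.sub_apply]
    rw [AddMonoidHom.zero_apply] at h2
    linear_combination h2
  obtain ⟨h2, h3⟩ := eq_zero_of_periods _ _ h1
  have hf : f = 0 := by
    have : (2 : ℂ) • f = 0 := by
      have : (2 : ℂ) • f = (f + g) + (f - g) := by rw [two_smul]; abel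
      rw [this, h2, h3, add_zero]
    exact (smul_eq_zero.mp this).resolve_left two_ne_zero
  have hg : g = 0 := by
    rw [hf, zero_add] at h2
    exact h2
  rw [hf, hg]
  rfl

end Fermat.Agent.S21
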