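import Fermat.Agent.S21.Period

set_option autoImplicit false

open UpperHalfPlane hiding I
open Complex Filter Function Matrix.SpecialLinearGroup CongruenceSubgroup
open scoped Manifold Topology Real MatrixGroups ModularForm Pointwise
open Fermat.Agent.S22

namespace Fermat.Agent.S21

/-- a matrix of trace `±2` is conjugate in `SL(2,ℤ)` to an upper triangular matrix. -/
theorem exists_conj_upper (γ : SL(2, ℤ))
    (h : (γ : Matrix (Fin 2) (Fin 2) ℤ).trace ^ 2 = 4) :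
    ∃ δ : SL(2, ℤ), (δ⁻¹ * γ * δ) 1 0 = 0 := by
  have hdet : γ 0 0 * γ 1 1 - γ 0 1 * γ 1 0 = 1 := by
    have := γ.det_coe
    rwa [Matrix.det_fin_two] at this
  rw [Matrix.trace_fin_two] at h
  by_cases hc : γ 1 0 = 0
  · exact ⟨1, by simpa using hc⟩
  · have hg : 0 < Int.gcd (γ 0 0 - γ 1 1) (2 * γ 1 0) := by
      apply Int.gcd_pos_of_ne_zero_right
      simpa using hc
    obtain ⟨g, p, q, hg0, hpq, hp, hq⟩ := Int.exists_gcd_one' hg
    obtain ⟨δ, hδ0, hδ1⟩ := (Int.isCoprime_iff_gcd_eq_one.mpr hpq).exists_SL2_col 0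
    refine ⟨δ, ?_⟩
    have hgz : (g : ℤ) ≠ 0 := by exact_mod_cast hg0.ne'
    have h1 : 2 * γ 1 0 * p + (γ 1 1 - γ 0 0) * q = 0 := by
      have : (g : ℤ) * (2 * γ 1 0 * p + (γ 1 1 - γ 0 0) * q) = 0 := by
        linear_combination (2 * γ 1 0) * (-hp) + (γ 1 1 - γ 0 0) * (-hq)
      exact (mul_eq_zero.mp this).resolve_left hgz
    have h2 : γ 1 0 * p ^ 2 + (γ 1 1 - γ 0 0) * p * q - γ 0 1 * q ^ 2 = 0 := by
      have : 4 * γ 1 0 * (γ 1 0 * p ^ 2 + (γ 1 1 - γ 0 0) * p * q - γ 0 1 * q ^ 2) = 0 := by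
        linear_combination (2 * γ 1 0 * p + (γ 1 1 - γ 0 0) * q) * h1 - q ^ 2 * h + 4 * q ^ 2 * hdet
      rcases mul_eq_zero.mp this with h3 | h3
      · exfalso; apply hc; omega
      · exact h3
    have h3 : (δ⁻¹ * γ * δ) 1 0
        = γ 1 0 * (δ 0 0) ^ 2 + (γ 1 1 - γ 0 0) * (δ 0 0) * (δ 1 0) - γ 0 1 * (δ 1 0) ^ 2 := by
      simp only [Matrix.SpecialLinearGroup.coe_mul, Matrix.SpecialLinearGroup.coe_inv,
        Matrix.adjugate_fin_two, Matrix.mul_apply, Fin.sum_univ_two]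
      simp
      ring
    rw [h3, hδ0, hδ1]
    exact h2

theorem tendsto_smul_atImInfty {g : SL(2, ℤ)} (hg : g 1 0 = 0) :
    Tendsto (fun w : ℍ => g • w) atImInfty atImInfty := by
  have hdet : g 0 0 * g 1 1 - g 0 1 * g 1 0 = 1 := by
    have := g.det_coe
    rwa [Matrix.det_fin_two] at this
  rw [hg, mul_zero, sub_zero] at hdet
  have hd : g 1 1 * g 1 1 = 1 := by
    rcases Int.eq_one_or_neg_one_of_mul_eq_one' hdet with ⟨-, h⟩ | ⟨-, h⟩ <;> rw [h] <;> norm_num
  have him : ∀ w : ℍ, (g • w).im = w.im := by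
    intro w
    rw [ModularGroup.im_smul_eq_div_normSq, ModularGroup.denom_apply, hg]
    have : Complex.normSq (((0 : ℤ) : ℂ) * (w : ℂ) + ((g 1 1 : ℤ) : ℂ)) = 1 := by
      rw [Int.cast_zero, zero_mul, zero_add, ← Complex.ofReal_intCast, Complex.normSq_ofReal]
      exact_mod_cast hd
    rw [this, div_one]
  rw [atImInfty, tendsto_comap_iff]
  have : (UpperHalfPlane.im ∘ fun w : ℍ => g • w) = UpperHalfPlane.im := by
    funext w; exact him w
  rw [this]
  exact tendsto_comap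

variable {N : ℕ} [NeZero N]

theorem periodMap_parabolic (f : CuspForm (Gamma0 N) 2) (γ : Gamma0 N)
    (h : ((γ : SL(2, ℤ)) : Matrix (Fin 2) (Fin 2) ℤ).trace ^ 2 = 4) :
    ModularCurve.periodMap N f (Additive.ofMul γ) = 0 := by
  rw [periodMap_apply]
  obtain ⟨δ, hδ⟩ := exists_conj_upper γ h
  set c := prim f ((γ : SL(2, ℤ)) • UpperHalfPlane.I) - prim f UpperHalfPlane.I with hc
  have h1 : ∀ w : ℍ, prim f (δ • ((δ⁻¹ * γ * δ) • w)) - prim f (δ • w) = c := by
    intro w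
    have := prim_Gamma0_sub f γ.2 (δ • w) UpperHalfPlane.I
    rw [← hc] at this
    rw [← this, ← mul_smul, ← mul_smul]
    congr 3
    group
  have h2 := tendsto_prim_smul f δ
  have h3 := (h2.comp (tendsto_smul_atImInfty hδ)).sub h2
  rw [sub_self] at h3
  have h4 : Tendsto (fun _ : ℍ => c) atImInfty (𝓝 0) := h3.congr (fun w => h1 w)
  exact tendsto_nhds_unique tendsto_const_nhds h4

theorem periodMap_mem_parabolicHoms (f : CuspForm (Gamma0 N) 2) :
    ModularCurve.periodMap N f ∈ ModularCurve.Period.parabolicHoms ℂ (Gamma0 N) ℂ :=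
  fun γ hγ => periodMap_parabolic f γ hγ

theorem range_le_parabolicHoms :
    LinearMap.range (ModularCurve.periodHomPair N)
      ≤ ModularCurve.Period.parabolicHoms ℂ (Gamma0 N) ℂ := by
  rintro _ ⟨⟨f, g⟩, rfl⟩
  intro γ hγ
  rw [periodHomPair_apply]
  have htr : (((ModularCurve.Period.jConjGamma0 N γ : Gamma0 N) : SL(2, ℤ)) :
      Matrix (Fin 2) (Fin 2) ℤ).trace ^ 2 = 4 := by
    rw [ModularCurve.Period.jConjGamma0_coe, ModularCurve.Period.jConjSL_coe,
      ModularCurve.Period.jConjMat_trace]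
    exact hγ
  rw [periodMap_parabolic f γ hγ, periodMap_parabolic g γ hγ, periodMap_parabolic f _ htr,
    periodMap_parabolic g _ htr]
  simp

end Fermat.Agent.S21
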