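import Fermat.Agent.S21.Dimension
import Fermat.Agent.S21.Injective
import Fermat.Agent.S21.Parabolic
import Fermat.Agent.S20.CombFixed
import Fermat.Agent.S20.CombQuot

set_option autoImplicit false

open Module CongruenceSubgroup
open scoped MatrixGroups

namespace Fermat.Agent.S21

open ModularGroup

theorem S_mul_S : (S * S : SL(2, ℤ)) = -1 := by
  ext i j
  fin_cases i <;> fin_cases j <;>
    simp [Matrix.SpecialLinearGroup.coe_mul, coe_S, Matrix.mul_apply, Fin.sum_univ_two]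

theorem TS_pow_three : ((T * S) ^ 3 : SL(2, ℤ)) = S * S := by
  rw [S_mul_S]
  ext i j
  fin_cases i <;> fin_cases j <;>
    simp [Matrix.SpecialLinearGroup.coe_mul, coe_S, coe_T, pow_succ, Matrix.mul_apply,
      Fin.sum_univ_two]

theorem closure_S_TS : Subgroup.closure ({S, T * S} : Set SL(2, ℤ)) = ⊤ := by
  rw [eq_top_iff, ← SpecialLinearGroup.SL2Z_generators, Subgroup.closure_le]
  rintro g (rfl | rfl)
  · exact Subgroup.subset_closure (Set.mem_insert _ _)
  · have h1 : (T * S : SL(2, ℤ)) ∈ Subgroup.closure ({S, T * S} : Set SL(2, ℤ)) :=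
      Subgroup.subset_closure (Set.mem_insert_of_mem _ rfl)
    have h2 : (S : SL(2, ℤ)) ∈ Subgroup.closure ({S, T * S} : Set SL(2, ℤ)) :=
      Subgroup.subset_closure (Set.mem_insert _ _)
    have h3 := Subgroup.mul_mem _ h1 (Subgroup.inv_mem _ h2)
    rwa [mul_inv_cancel_right] at h3

variable (N : ℕ)

theorem smul_eq_self_of_conj_mem {g : SL(2, ℤ)} (hg : ∀ a : SL(2, ℤ), a⁻¹ * g * a ∈ Gamma0 N)
    (q : SL(2, ℤ) ⧸ Gamma0 N) : g • q = q := by
  induction q using QuotientGroup.induction_on with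
  | H a =>
    rw [MulAction.Quotient.smul_mk, eq_comm, QuotientGroup.eq, smul_eq_mul, ← mul_assoc]
    exact hg a

theorem conj_neg_one_mem (a : SL(2, ℤ)) : a⁻¹ * (S * S) * a ∈ Gamma0 N := by
  rw [S_mul_S]
  have : a⁻¹ * (-1 : SL(2, ℤ)) * a = -1 := by
    simp
  rw [this]
  simp [Gamma0_mem]

theorem conj_T_pow_mem (a : SL(2, ℤ)) : a⁻¹ * (T ^ N) * a ∈ Gamma0 N := by
  have h1 : (T ^ N : SL(2, ℤ)) ∈ Gamma N := by
    have := ModularGroup_T_pow_mem_Gamma (N : ℤ) (N : ℤ) dvd_rfl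
    simpa using this
  have h2 : a⁻¹ * (T ^ N) * a ∈ Gamma N := by
    have := (Gamma_normal N).conj_mem _ h1 a⁻¹
    simpa using this
  rw [Gamma_mem] at h2
  rw [Gamma0_mem]
  exact h2.2.2.1

theorem trace_cocEl {g : SL(2, ℤ)} (hg : ∀ q : SL(2, ℤ) ⧸ Gamma0 N, g • q = q)
    (q : SL(2, ℤ) ⧸ Gamma0 N) :
    (((cocEl (Gamma0 N) g q : Gamma0 N) : SL(2, ℤ)) : Matrix (Fin 2) (Fin 2) ℤ).trace
      = (g : Matrix (Fin 2) (Fin 2) ℤ).trace := by
  rw [cocEl_coe, hg, Matrix.SpecialLinearGroup.coe_mul, Matrix.trace_mul_comm,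
    ← Matrix.SpecialLinearGroup.coe_mul, mul_assoc, mul_inv_cancel, mul_one]

theorem card_fixed_TS [NeZero N] :
    Nat.card {q : SL(2, ℤ) ⧸ Gamma0 N // (T * S) • q = q} = ModularCurve.nuThree N := by
  rw [← Fermat.Agent.S20.card_fixed_ST N]
  refine Nat.card_congr (Equiv.subtypeEquiv (MulAction.toPerm (S : SL(2, ℤ))) fun q => ?_)
  rw [MulAction.toPerm_apply, ← mul_smul, mul_assoc, mul_smul S]
  exact (smul_left_cancel_iff S).symm

/-- the upper bound for the dimension of the space of parabolic homomorphisms. -/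
theorem finrank_parabolicHoms_le [NeZero N]
    (hc : Nat.card (MulAction.orbitRel.Quotient (Subgroup.zpowers ModularGroup.T)
      (SL(2, ℤ) ⧸ Gamma0 N)) = ModularCurve.cuspCount N) :
    Module.Finite ℂ (ModularCurve.Period.parabolicHoms ℂ (Gamma0 N) ℂ) ∧
    (finrank ℂ (ModularCurve.Period.parabolicHoms ℂ (Gamma0 N) ℂ) : ℚ)
      ≤ 2 * ModularCurve.genusFormula N := by
  have : Finite (SL(2, ℤ) ⧸ Gamma0 N) := Subgroup.finite_quotient_of_finiteIndex
  let _ : Fintype (SL(2, ℤ) ⧸ Gamma0 N) := Fintype.ofFinite _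
  have hZ : ∀ q : SL(2, ℤ) ⧸ Gamma0 N, (S * S) • q = q :=
    smul_eq_self_of_conj_mem N (conj_neg_one_mem N)
  have hTN : ∀ q : SL(2, ℤ) ⧸ Gamma0 N, (T ^ N) • q = q :=
    smul_eq_self_of_conj_mem N (conj_T_pow_mem N)
  have hU3 : ∀ q : SL(2, ℤ) ⧸ Gamma0 N, ((T * S) ^ 3) • q = q := by
    rw [TS_pow_three]; exact hZ
  obtain ⟨hfin, h1⟩ := finrank_bound (Γ := Gamma0 N) (S := S) (T := T) (M := N)
    SpecialLinearGroup.SL2Z_generators (Nat.pos_of_ne_zero (NeZero.ne N)) hTN hZ TS_pow_three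
    (ModularCurve.Period.parabolicHoms ℂ (Gamma0 N) ℂ)
    (by
      intro φ hφ q
      apply hφ
      rw [trace_cocEl N hZ, S_mul_S]
      simp)
    (by
      intro φ hφ q
      apply hφ
      rw [trace_cocEl N hTN]
      have : ((T ^ N : SL(2, ℤ)) : Matrix (Fin 2) (Fin 2) ℤ) = !![1, (N : ℤ); 0, 1] := by
        have := ModularGroup.coe_T_zpow (N : ℤ)
        simpa using this
      rw [this]
      simp [Matrix.trace_fin_two])
  refine ⟨hfin, ?_⟩
  have h2 := finrank_W_bound (Γ := Gamma0 N) closure_S_TS hZ hU3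
  have h3 := finrank_Wtwo (Γ := Gamma0 N) hZ
  have h4 := finrank_Wthree (Γ := Gamma0 N) hU3
  rw [finrank_Vinv, hc] at h1
  rw [Fermat.Agent.S20.card_fixed_S] at h3
  rw [card_fixed_TS] at h4
  have h5 : Fintype.card (SL(2, ℤ) ⧸ Gamma0 N) = ModularCurve.dedekindPsi N := by
    rw [← Nat.card_eq_fintype_card, Fermat.Agent.S20.card_quot]
  rw [h5] at h2 h3 h4
  unfold ModularCurve.genusFormula
  have e1 : (finrank ℂ (ModularCurve.Period.parabolicHoms ℂ (Gamma0 N) ℂ) : ℚ)
      + ModularCurve.cuspCount N ≤ finrank ℂ ↥(Wtwo (Gamma0 N) S ⊓ Wthree (Gamma0 N) (T * S)) + 1 := by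
    exact_mod_cast h1
  have e2 : (finrank ℂ ↥(Wtwo (Gamma0 N) S ⊓ Wthree (Gamma0 N) (T * S)) : ℚ)
      + ModularCurve.dedekindPsi N
      ≤ finrank ℂ (Wtwo (Gamma0 N) S) + finrank ℂ (Wthree (Gamma0 N) (T * S)) + 1 := by
    exact_mod_cast h2
  have e3 : (2 * finrank ℂ (Wtwo (Gamma0 N) S) + ModularCurve.nuTwo N : ℚ)
      = ModularCurve.dedekindPsi N := by exact_mod_cast h3
  have e4 : (3 * finrank ℂ (Wthree (Gamma0 N) (T * S)) + 2 * ModularCurve.nuThree N : ℚ)
      = 2 * ModularCurve.dedekindPsi N := by exact_mod_cast h4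
  linarith

/-- Eichler–Shimura, given the dimension formula and the cusp count. -/
theorem eichlerShimura_of [NeZero N]
    (hc : Nat.card (MulAction.orbitRel.Quotient (Subgroup.zpowers ModularGroup.T)
      (SL(2, ℤ) ⧸ Gamma0 N)) = ModularCurve.cuspCount N)
    (h20 : (finrank ℂ (CuspForm (Gamma0 N) 2) : ℚ) = ModularCurve.genusFormula N) :
    Function.Injective (ModularCurve.periodHomPair N)
      ∧ LinearMap.range (ModularCurve.periodHomPair N)
          = ModularCurve.Period.parabolicHoms ℂ (Gamma0 N) ℂ := by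
  refine ⟨periodHomPair_injective, ?_⟩
  obtain ⟨hfin, hle⟩ := finrank_parabolicHoms_le N hc
  apply Submodule.eq_of_le_of_finrank_le (range_le_parabolicHoms (N := N))
  rw [LinearMap.finrank_range_of_inj (periodHomPair_injective (N := N))]
  have hfinS : Module.Finite ℂ (CuspForm (Gamma0 N) 2 × CuspForm (Gamma0 N) 2) := by
    have h1 : Function.Injective ((ModularCurve.periodHomPair N).codRestrict
        (ModularCurve.Period.parabolicHoms ℂ (Gamma0 N) ℂ)
        (fun p => range_le_parabolicHoms (N := N) (LinearMap.mem_range_self _ p))) := by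
      intro a b hab
      exact periodHomPair_injective (congrArg Subtype.val hab)
    exact Module.Finite.of_injective _ h1
  have hfinS1 : Module.Finite ℂ (CuspForm (Gamma0 N) 2) :=
    Module.Finite.of_injective (LinearMap.inl ℂ _ (CuspForm (Gamma0 N) 2)) LinearMap.inl_injective
  rw [Module.finrank_prod]
  have : (finrank ℂ (ModularCurve.Period.parabolicHoms ℂ (Gamma0 N) ℂ) : ℚ)
      ≤ ((finrank ℂ (CuspForm (Gamma0 N) 2) + finrank ℂ (CuspForm (Gamma0 N) 2) : ℕ) : ℚ) := by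
    push_cast
    rw [h20]
    linarith
  exact_mod_cast this

end Fermat.Agent.S21
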