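import Mathlib

set_option autoImplicit false

open Module

namespace Fermat.Agent.S21

section abstract

variable {G : Type*} [Group G] (Γ : Subgroup G)

/-- the `Γ`-valued cocycle attached to the section `Quotient.out`. -/
noncomputable def cocEl (g : G) (q : G ⧸ Γ) : Γ :=
  ⟨(Quotient.out (g • q))⁻¹ * (g * Quotient.out q), by
    rw [← QuotientGroup.eq, QuotientGroup.out_eq']
    conv_lhs => rw [← QuotientGroup.out_eq' q]
    rfl⟩

theorem cocEl_coe (g : G) (q : G ⧸ Γ) :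
    (cocEl Γ g q : G) = (Quotient.out (g • q))⁻¹ * (g * Quotient.out q) := rfl

theorem cocEl_mul (g h : G) (q : G ⧸ Γ) :
    cocEl Γ (g * h) q = cocEl Γ g (h • q) * cocEl Γ h q := by
  apply Subtype.ext
  rw [Subgroup.coe_mul, cocEl_coe, cocEl_coe, cocEl_coe, mul_smul]
  group

/-- the operator `v ↦ v ∘ (g • ·)`. -/
noncomputable def Lop (g : G) : ((G ⧸ Γ) → ℂ) →ₗ[ℂ] ((G ⧸ Γ) → ℂ) :=
  LinearMap.funLeft ℂ ℂ (fun q => g • q)

@[simp] theorem Lop_apply (g : G) (v : (G ⧸ Γ) → ℂ) (q : G ⧸ Γ) : Lop Γ g v q = v (g • q) := rfl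

theorem Lop_mul (g h : G) (v : (G ⧸ Γ) → ℂ) : Lop Γ (g * h) v = Lop Γ h (Lop Γ g v) := by
  funext q
  simp [mul_smul]

/-- the cocycle attached to a homomorphism `φ : Γ → ℂ`. -/
noncomputable def kap (g : G) : (Additive Γ →+ ℂ) →ₗ[ℂ] ((G ⧸ Γ) → ℂ) where
  toFun φ q := φ (Additive.ofMul (cocEl Γ g q))
  map_add' _ _ := rfl
  map_smul' _ _ := rfl

@[simp] theorem kap_apply (g : G) (φ : Additive Γ →+ ℂ) (q : G ⧸ Γ) :
    kap Γ g φ q = φ (Additive.ofMul (cocEl Γ g q)) := rfl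

theorem kap_mul (g h : G) (φ : Additive Γ →+ ℂ) :
    kap Γ (g * h) φ = Lop Γ h (kap Γ g φ) + kap Γ h φ := by
  funext q
  simp only [kap_apply, Pi.add_apply, Lop_apply, cocEl_mul, ofMul_mul, map_add]

/-- abstract cocycles. -/
def IsCoc (c : G → (G ⧸ Γ) → ℂ) : Prop := ∀ g h, c (g * h) = Lop Γ h (c g) + c h

variable {Γ}

theorem IsCoc.one {c : G → (G ⧸ Γ) → ℂ} (hc : IsCoc Γ c) : c 1 = 0 := by
  have := hc 1 1
  rw [mul_one] at this
  have h1 : Lop Γ 1 (c 1) = c 1 := by funext q; simp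
  rw [h1] at this
  exact left_eq_add.mp this

theorem IsCoc.eq_zero {c : G → (G ⧸ Γ) → ℂ} (hc : IsCoc Γ c) {s : Set G}
    (hs : Subgroup.closure s = ⊤) (h0 : ∀ g ∈ s, c g = 0) (g : G) : c g = 0 := by
  have hg : g ∈ Subgroup.closure s := by rw [hs]; trivial
  induction hg using Subgroup.closure_induction with
  | mem x hx => exact h0 x hx
  | one => exact hc.one
  | mul x y _ _ hx hy => rw [hc, hx, hy, map_zero, add_zero]
  | inv x _ hx =>
    have := hc x x⁻¹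
    rw [mul_inv_cancel, hc.one, hx, map_zero, zero_add] at this
    exact this.symm

theorem isCoc_kap (φ : Additive Γ →+ ℂ) : IsCoc Γ (fun g => kap Γ g φ) :=
  fun g h => kap_mul Γ g h φ

theorem isCoc_cob (x : (G ⧸ Γ) → ℂ) : IsCoc Γ (fun g => Lop Γ g x - x) := by
  intro g h
  simp only [Lop_mul, map_sub]
  abel

theorem IsCoc.sub {c c' : G → (G ⧸ Γ) → ℂ} (hc : IsCoc Γ c) (hc' : IsCoc Γ c') :
    IsCoc Γ (fun g => c g - c' g) := by
  intro g h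
  simp only [hc g h, hc' g h, map_sub]
  abel

theorem IsCoc.add {c c' : G → (G ⧸ Γ) → ℂ} (hc : IsCoc Γ c) (hc' : IsCoc Γ c') :
    IsCoc Γ (fun g => c g + c' g) := by
  intro g h
  simp only [hc g h, hc' g h, map_add]
  abel

theorem IsCoc.pow {c : G → (G ⧸ Γ) → ℂ} (hc : IsCoc Γ c) (g : G) (n : ℕ) (q : G ⧸ Γ) :
    c (g ^ n) q = ∑ s ∈ Finset.range n, c g (g ^ s • q) := by
  induction n generalizing q with
  | zero => simp [hc.one]
  | succ n ih =>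
    rw [pow_succ', hc, Pi.add_apply, Lop_apply, ih, Finset.sum_range_succ]
    ring

/-- a homomorphism whose cocycle is a coboundary vanishes. -/
theorem eq_zero_of_kap_eq_cob (φ : Additive Γ →+ ℂ) (x : (G ⧸ Γ) → ℂ)
    (h : ∀ g, kap Γ g φ = Lop Γ g x - x) : φ = 0 := by
  refine AddMonoidHom.ext fun γ => ?_
  obtain ⟨γ, rfl⟩ := Additive.ofMul.surjective γ
  set q₀ : G ⧸ Γ := QuotientGroup.mk 1 with hq₀
  have hfix : (γ : G) • q₀ = q₀ := by
    rw [hq₀, MulAction.Quotient.smul_mk, QuotientGroup.eq]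
    simp
  have hρ : Quotient.out q₀ ∈ Γ := by
    have : (QuotientGroup.mk (Quotient.out q₀) : G ⧸ Γ) = QuotientGroup.mk 1 :=
      QuotientGroup.out_eq' q₀
    rw [QuotientGroup.eq] at this
    simpa using Γ.inv_mem this
  have h1 := congrFun (h γ) q₀
  rw [kap_apply, Pi.sub_apply, Lop_apply, hfix, sub_self] at h1
  have h2 : cocEl Γ (γ : G) q₀ = (⟨_, hρ⟩ : Γ)⁻¹ * (γ * ⟨_, hρ⟩) := by
    apply Subtype.ext
    rw [cocEl_coe, hfix]
    rfl
  rw [h2, ofMul_mul, ofMul_mul, ofMul_inv, map_add, map_add, map_neg] at h1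
  rw [AddMonoidHom.zero_apply]
  linear_combination h1

theorem sum_shift (a : ℕ → ℂ) (n : ℕ) :
    ∑ s ∈ Finset.range n, ((s : ℂ) * a (s + 1) - (s : ℂ) * a s)
      = n * a n - ∑ s ∈ Finset.range n, a (s + 1) := by
  induction n with
  | zero => simp
  | succ n ih =>
    rw [Finset.sum_range_succ, ih, Finset.sum_range_succ]
    push_cast
    ring

/-- explicit solution of `(L_T - 1) x = v` when `T^M` acts trivially and `(∑ L_T^s) v = 0`. -/
noncomputable def solT (T : G) (M : ℕ) : ((G ⧸ Γ) → ℂ) →ₗ[ℂ] ((G ⧸ Γ) → ℂ) :=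
  (M : ℂ)⁻¹ • ∑ s ∈ Finset.range M, (s : ℂ) • Lop Γ (T ^ s)

theorem solT_apply (T : G) (M : ℕ) (v : (G ⧸ Γ) → ℂ) (q : G ⧸ Γ) :
    solT T M v q = (M : ℂ)⁻¹ * ∑ s ∈ Finset.range M, (s : ℂ) * v (T ^ s • q) := by
  simp [solT, LinearMap.sum_apply, Finset.sum_apply]

theorem solT_spec {T : G} {M : ℕ} (hM : 0 < M) (hTM : ∀ q : G ⧸ Γ, T ^ M • q = q)
    {v : (G ⧸ Γ) → ℂ} (hv : ∀ q, ∑ s ∈ Finset.range M, v (T ^ s • q) = 0) :
    Lop Γ T (solT T M v) - solT T M v = v := by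
  funext q
  rw [Pi.sub_apply, Lop_apply, solT_apply, solT_apply, ← mul_sub, ← Finset.sum_sub_distrib]
  have h1 := sum_shift (fun s => v (T ^ s • q)) M
  have h2 : ∀ s : ℕ, T ^ s • T • q = T ^ (s + 1) • q := by
    intro s; rw [pow_succ, mul_smul]
  simp only [h2]
  rw [h1, hTM]
  have h3 : ∑ s ∈ Finset.range M, v (T ^ (s + 1) • q) = 0 := by
    have e1 := Finset.sum_range_succ (fun s => v (T ^ s • q)) M
    have e2 := Finset.sum_range_succ' (fun s => v (T ^ s • q)) M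
    rw [e1, hv q, hTM, pow_zero, one_smul] at e2
    linear_combination -e2
  rw [h3, sub_zero]
  have : (M : ℂ) ≠ 0 := by exact_mod_cast hM.ne'
  field_simp

end abstract

section bound

variable {G : Type*} [Group G] (Γ : Subgroup G)

/-- `g`-invariant vectors. -/
noncomputable def Vinv (g : G) : Submodule ℂ ((G ⧸ Γ) → ℂ) := LinearMap.ker (Lop Γ g - 1)

/-- the `-1`-eigenspace of an "involution". -/
noncomputable def Wtwo (g : G) : Submodule ℂ ((G ⧸ Γ) → ℂ) := LinearMap.ker (1 + Lop Γ g)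

/-- the kernel of `1 + u + u²`. -/
noncomputable def Wthree (g : G) : Submodule ℂ ((G ⧸ Γ) → ℂ) :=
  LinearMap.ker (1 + Lop Γ g + Lop Γ (g ^ 2))

variable {Γ}

theorem mem_Vinv {g : G} {v : (G ⧸ Γ) → ℂ} : v ∈ Vinv Γ g ↔ Lop Γ g v - v = 0 := by
  simp [Vinv, LinearMap.mem_ker]

theorem mem_Wtwo {g : G} {v : (G ⧸ Γ) → ℂ} : v ∈ Wtwo Γ g ↔ v + Lop Γ g v = 0 := by
  simp [Wtwo, LinearMap.mem_ker]

theorem mem_Wthree {g : G} {v : (G ⧸ Γ) → ℂ} :
    v ∈ Wthree Γ g ↔ v + Lop Γ g v + Lop Γ (g ^ 2) v = 0 := by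
  simp [Wthree, LinearMap.mem_ker]

theorem IsCoc.mem_W {c : G → (G ⧸ Γ) → ℂ} (hc : IsCoc Γ c) {S T : G} (hT : c T = 0)
    (hZ : c (S * S) = 0) (hU : (T * S) ^ 3 = S * S) :
    c S ∈ Wtwo Γ S ⊓ Wthree Γ (T * S) := by
  constructor
  · rw [SetLike.mem_coe, mem_Wtwo]
    have := hc S S
    rw [hZ] at this
    rw [add_comm]
    exact this.symm
  · rw [SetLike.mem_coe, mem_Wthree]
    have h1 : c (T * S) = c S := by rw [hc, hT, map_zero, zero_add]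
    funext q
    have h2 := hc.pow (T * S) 3 q
    rw [hU, hZ, h1] at h2
    simp only [Finset.sum_range_succ, Finset.sum_range_zero, pow_zero, one_smul, pow_one,
      zero_add, Pi.zero_apply] at h2
    simp only [Pi.add_apply, Lop_apply, Pi.zero_apply]
    exact h2.symm

variable (S T : G) (M : ℕ)

/-- the normalised value at `S` of the cocycle of `φ`. -/
noncomputable def yLin : (Additive Γ →+ ℂ) →ₗ[ℂ] ((G ⧸ Γ) → ℂ) :=
  kap Γ S - (Lop Γ S - 1) ∘ₗ solT T M ∘ₗ kap Γ T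

noncomputable def XiZero : ((Additive Γ →+ ℂ) × ((G ⧸ Γ) → ℂ)) →ₗ[ℂ] ((G ⧸ Γ) → ℂ) :=
  (yLin S T M).coprod (Lop Γ S - 1)

/-- the auxiliary cocycle. -/
noncomputable def auxCoc (φ : Additive Γ →+ ℂ) (x' : (G ⧸ Γ) → ℂ) : G → (G ⧸ Γ) → ℂ :=
  fun g => kap Γ g φ - (Lop Γ g (solT T M (kap Γ T φ)) - solT T M (kap Γ T φ)) + (Lop Γ g x' - x')

theorem isCoc_auxCoc (φ : Additive Γ →+ ℂ) (x' : (G ⧸ Γ) → ℂ) : IsCoc Γ (auxCoc T M φ x') :=
  ((isCoc_kap φ).sub (isCoc_cob _)).add (isCoc_cob x')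

theorem auxCoc_S (φ : Additive Γ →+ ℂ) (x' : (G ⧸ Γ) → ℂ) :
    auxCoc T M φ x' S = XiZero S T M (φ, x') := by
  simp [auxCoc, XiZero, yLin]

variable {S T M}

theorem auxCoc_T (hM : 0 < M) (hTM : ∀ q : G ⧸ Γ, T ^ M • q = q) {φ : Additive Γ →+ ℂ}
    (hp2 : ∀ q, φ (Additive.ofMul (cocEl Γ (T ^ M) q)) = 0) {x' : (G ⧸ Γ) → ℂ}
    (hx' : x' ∈ Vinv Γ T) : auxCoc T M φ x' T = 0 := by
  have h1 : Lop Γ T (solT T M (kap Γ T φ)) - solT T M (kap Γ T φ) = kap Γ T φ := by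
    apply solT_spec hM hTM
    intro q
    rw [← (isCoc_kap φ).pow T M q]
    exact hp2 q
  simp only [auxCoc]
  rw [h1, mem_Vinv.mp hx', sub_self, add_zero]

theorem auxCoc_Z (hZ : ∀ q : G ⧸ Γ, (S * S) • q = q) {φ : Additive Γ →+ ℂ}
    (hp1 : ∀ q, φ (Additive.ofMul (cocEl Γ (S * S) q)) = 0) (x' : (G ⧸ Γ) → ℂ) :
    auxCoc T M φ x' (S * S) = 0 := by
  have h1 : ∀ v : (G ⧸ Γ) → ℂ, Lop Γ (S * S) v = v := by
    intro v; funext q; rw [Lop_apply, hZ]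
  have h2 : kap Γ (S * S) φ = 0 := by
    funext q; exact hp1 q
  simp only [auxCoc]
  rw [h1, h1, h2]
  simp

theorem finrank_bound [Finite (G ⧸ Γ)] (hgen : Subgroup.closure {S, T} = ⊤) (hM : 0 < M)
    (hTM : ∀ q : G ⧸ Γ, T ^ M • q = q) (hZ : ∀ q : G ⧸ Γ, (S * S) • q = q)
    (hU : (T * S) ^ 3 = S * S) (Hp : Submodule ℂ (Additive Γ →+ ℂ))
    (hp1 : ∀ φ ∈ Hp, ∀ q, φ (Additive.ofMul (cocEl Γ (S * S) q)) = 0)
    (hp2 : ∀ φ ∈ Hp, ∀ q, φ (Additive.ofMul (cocEl Γ (T ^ M) q)) = 0) :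
    Module.Finite ℂ Hp ∧
      finrank ℂ Hp + finrank ℂ (Vinv Γ T) ≤ finrank ℂ ↥(Wtwo Γ S ⊓ Wthree Γ (T * S)) + 1 := by
  set W := Wtwo Γ S ⊓ Wthree Γ (T * S) with hW
  let Ξ₀ : (Hp × Vinv Γ T) →ₗ[ℂ] ((G ⧸ Γ) → ℂ) :=
    XiZero S T M ∘ₗ (Hp.subtype.prodMap (Vinv Γ T).subtype)
  have hmem : ∀ p, Ξ₀ p ∈ W := by
    rintro ⟨φ, x'⟩
    have h1 : Ξ₀ (φ, x') = auxCoc T M (φ : Additive Γ →+ ℂ) (x' : (G ⧸ Γ) → ℂ) S := by
      rw [auxCoc_S]; rfl
    rw [h1]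
    exact (isCoc_auxCoc T M _ _).mem_W (auxCoc_T hM hTM (hp2 φ φ.2) x'.2)
      (auxCoc_Z hZ (hp1 φ φ.2) _) hU
  let Ξ₁ : (Hp × Vinv Γ T) →ₗ[ℂ] W := Ξ₀.codRestrict W hmem
  let ev : (Hp × Vinv Γ T) →ₗ[ℂ] ℂ :=
    (LinearMap.proj (QuotientGroup.mk 1 : G ⧸ Γ)) ∘ₗ (Vinv Γ T).subtype ∘ₗ LinearMap.snd ℂ _ _
  let Ξ : (Hp × Vinv Γ T) →ₗ[ℂ] (W × ℂ) := Ξ₁.prod ev
  have hinj : Function.Injective Ξ := by
    rw [injective_iff_map_eq_zero]
    rintro ⟨φ, x'⟩ h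
    have h1 : Ξ₀ (φ, x') = 0 := congrArg (fun p : W × ℂ => (p.1 : (G ⧸ Γ) → ℂ)) h
    have h2 : (x' : (G ⧸ Γ) → ℂ) (QuotientGroup.mk 1) = 0 := congrArg (fun p : W × ℂ => p.2) h
    have h3 : auxCoc T M (φ : Additive Γ →+ ℂ) (x' : (G ⧸ Γ) → ℂ) S = 0 := by
      rw [auxCoc_S]; exact h1
    have h4 := (isCoc_auxCoc T M (φ : Additive Γ →+ ℂ) (x' : (G ⧸ Γ) → ℂ)).eq_zero hgen (by
      intro g hg
      rcases hg with rfl | rfl
      · exact h3
      · exact auxCoc_T hM hTM (hp2 φ φ.2) x'.2)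
    have h5 : (φ : Additive Γ →+ ℂ) = 0 := by
      apply eq_zero_of_kap_eq_cob _
        (solT T M (kap Γ T (φ : Additive Γ →+ ℂ)) - (x' : (G ⧸ Γ) → ℂ))
      intro g
      have := h4 g
      simp only [auxCoc] at this
      rw [map_sub]
      linear_combination (exp := 1) this
    have h6 : ∀ g, Lop Γ g (x' : (G ⧸ Γ) → ℂ) - x' = 0 := by
      intro g
      have := h4 g
      simp only [auxCoc, h5, map_zero, sub_self, zero_add] at this
      exact this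
    have h7 : (x' : (G ⧸ Γ) → ℂ) = 0 := by
      funext q
      induction q using QuotientGroup.induction_on with
      | H g =>
        have := congrFun (h6 g) (QuotientGroup.mk 1)
        rw [Pi.sub_apply, Lop_apply, h2, sub_zero, MulAction.Quotient.smul_mk, smul_eq_mul,
          mul_one] at this
        exact this
    ext1
    · exact Subtype.ext h5
    · exact Subtype.ext h7
  have hfin : Module.Finite ℂ (Hp × Vinv Γ T) := Module.Finite.of_injective Ξ hinj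
  have hfinH : Module.Finite ℂ Hp :=
    Module.Finite.of_injective (LinearMap.inl ℂ Hp (Vinv Γ T)) LinearMap.inl_injective
  refine ⟨hfinH, ?_⟩
  have := LinearMap.finrank_le_finrank_of_injective hinj
  rw [Module.finrank_prod, Module.finrank_prod, Module.finrank_self] at this
  exact this

end bound

end Fermat.Agent.S21
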