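import Fermat.Agent.S21.Cohomology

set_option autoImplicit false

open Module

namespace Fermat.Agent.S21

variable {G : Type*} [Group G] {Γ : Subgroup G}

theorem Lop_one (v : (G ⧸ Γ) → ℂ) : Lop Γ 1 v = v := by
  funext q; simp

theorem Lop_of_trivial {g : G} (hg : ∀ q : G ⧸ Γ, g • q = q) (v : (G ⧸ Γ) → ℂ) :
    Lop Γ g v = v := by
  funext q; rw [Lop_apply, hg]

theorem sub_Lop_mem_Wtwo {g : G} (hg : ∀ q : G ⧸ Γ, (g * g) • q = q) (v : (G ⧸ Γ) → ℂ) :
    v - Lop Γ g v ∈ Wtwo Γ g := by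
  rw [mem_Wtwo, map_sub, ← Lop_mul, Lop_of_trivial hg]
  abel

theorem sub_Lop_mem_Wthree {g : G} (hg : ∀ q : G ⧸ Γ, (g ^ 3) • q = q) (v : (G ⧸ Γ) → ℂ) :
    v - Lop Γ g v ∈ Wthree Γ g := by
  rw [mem_Wthree, map_sub, map_sub, ← Lop_mul, ← Lop_mul, ← pow_succ', ← pow_two,
    Lop_of_trivial hg]
  abel

theorem sub_Lop_mem_of_closure {C : Submodule ℂ ((G ⧸ Γ) → ℂ)} {s : Set G}
    (hs : Subgroup.closure s = ⊤) (h : ∀ g ∈ s, ∀ v, v - Lop Γ g v ∈ C) (g : G)
    (v : (G ⧸ Γ) → ℂ) : v - Lop Γ g v ∈ C := by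
  have hg : g ∈ Subgroup.closure s := by rw [hs]; trivial
  induction hg using Subgroup.closure_induction generalizing v with
  | mem x hx => exact h x hx v
  | one => rw [Lop_one, sub_self]; exact C.zero_mem
  | mul x y _ _ hx hy =>
    have : v - Lop Γ (x * y) v = (v - Lop Γ x v) + (Lop Γ x v - Lop Γ y (Lop Γ x v)) := by
      rw [Lop_mul]; abel
    rw [this]
    exact C.add_mem (hx v) (hy _)
  | inv x _ hx =>
    have h1 : Lop Γ x (Lop Γ x⁻¹ v) = v := by
      rw [← Lop_mul, inv_mul_cancel, Lop_one]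
    have : v - Lop Γ x⁻¹ v = -(Lop Γ x⁻¹ v - Lop Γ x (Lop Γ x⁻¹ v)) := by
      rw [h1]; abel
    rw [this]
    exact C.neg_mem (hx _)

theorem card_le_finrank_add_one [Fintype (G ⧸ Γ)] {C : Submodule ℂ ((G ⧸ Γ) → ℂ)}
    (h : ∀ (g : G) (v : (G ⧸ Γ) → ℂ), v - Lop Γ g v ∈ C) :
    Fintype.card (G ⧸ Γ) ≤ finrank ℂ C + 1 := by
  classical
  set q₀ : G ⧸ Γ := QuotientGroup.mk 1 with hq₀
  have h1 : ∀ q : G ⧸ Γ, (Pi.single q (1 : ℂ) : (G ⧸ Γ) → ℂ) - Pi.single q₀ 1 ∈ C := by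
    intro q
    induction q using QuotientGroup.induction_on with
    | H g =>
      have h2 := h g (Pi.single (QuotientGroup.mk g) (1 : ℂ))
      have h3 : Lop Γ g (Pi.single (QuotientGroup.mk g : G ⧸ Γ) (1 : ℂ)) = Pi.single q₀ 1 := by
        funext p
        rw [Lop_apply]
        have h4 : (QuotientGroup.mk g : G ⧸ Γ) = g • q₀ := by
          rw [hq₀, MulAction.Quotient.smul_mk, smul_eq_mul, mul_one]
        rw [h4]
        by_cases hp : p = q₀
        · rw [hp]; simp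
        · rw [Pi.single_eq_of_ne hp, Pi.single_eq_of_ne]
          intro h5
          exact hp (smul_left_cancel g h5)
      rwa [h3] at h2
  have htop : (⊤ : Submodule ℂ ((G ⧸ Γ) → ℂ)) ≤ C ⊔ Submodule.span ℂ {Pi.single q₀ (1 : ℂ)} := by
    intro v _
    have h5 : v = (∑ q, v q • ((Pi.single q (1 : ℂ) : (G ⧸ Γ) → ℂ) - Pi.single q₀ 1))
        + (∑ q, v q) • Pi.single q₀ (1 : ℂ) := by
      simp only [smul_sub, Finset.sum_sub_distrib, Finset.sum_smul]
      rw [sub_add_cancel]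
      funext p
      simp [Finset.sum_apply, Pi.single_apply]
    rw [h5]
    exact Submodule.add_mem_sup (C.sum_mem fun q _ => C.smul_mem _ (h1 q))
      (Submodule.smul_mem _ _ (Submodule.mem_span_singleton_self _))
  have h6 := Submodule.finrank_mono htop
  rw [finrank_top, Module.finrank_fintype_fun_eq_card] at h6
  have h7 := Submodule.finrank_add_le_finrank_add_finrank C
    (Submodule.span ℂ {(Pi.single q₀ (1 : ℂ) : (G ⧸ Γ) → ℂ)})
  have h8 : finrank ℂ (Submodule.span ℂ {(Pi.single q₀ (1 : ℂ) : (G ⧸ Γ) → ℂ)}) ≤ 1 :=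
    (finrank_span_le_card _).trans (by simp)
  omega

theorem finrank_W_bound [Fintype (G ⧸ Γ)] {S U : G} (hgen : Subgroup.closure {S, U} = ⊤)
    (hS : ∀ q : G ⧸ Γ, (S * S) • q = q) (hU : ∀ q : G ⧸ Γ, (U ^ 3) • q = q) :
    finrank ℂ ↥(Wtwo Γ S ⊓ Wthree Γ U) + Fintype.card (G ⧸ Γ)
      ≤ finrank ℂ (Wtwo Γ S) + finrank ℂ (Wthree Γ U) + 1 := by
  have h1 := Submodule.finrank_sup_add_finrank_inf_eq (Wtwo Γ S) (Wthree Γ U)
  have h2 : Fintype.card (G ⧸ Γ) ≤ finrank ℂ ↥(Wtwo Γ S ⊔ Wthree Γ U) + 1 := by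
    apply card_le_finrank_add_one
    apply sub_Lop_mem_of_closure hgen
    intro g hg v
    rcases hg with rfl | rfl
    · exact Submodule.mem_sup_left (sub_Lop_mem_Wtwo hS v)
    · exact Submodule.mem_sup_right (sub_Lop_mem_Wthree hU v)
  omega

theorem trace_Lop [Fintype (G ⧸ Γ)] (g : G) :
    LinearMap.trace ℂ _ (Lop Γ g) = (Nat.card {q : G ⧸ Γ // g • q = q} : ℂ) := by
  classical
  rw [LinearMap.trace_eq_matrix_trace ℂ (Pi.basisFun ℂ (G ⧸ Γ)), LinearMap.toMatrix_eq_toMatrix',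
    Matrix.trace]
  simp only [Matrix.diag_apply, LinearMap.toMatrix'_apply, Lop_apply]
  rw [Nat.card_eq_fintype_card, Fintype.card_subtype, Finset.card_filter]
  push_cast
  refine Finset.sum_congr rfl fun q _ => ?_
  simp [Pi.single_apply]

theorem finrank_Wtwo [Fintype (G ⧸ Γ)] {g : G} (hg : ∀ q : G ⧸ Γ, (g * g) • q = q) :
    2 * finrank ℂ (Wtwo Γ g) + Nat.card {q : G ⧸ Γ // g • q = q} = Fintype.card (G ⧸ Γ) := by
  let P : ((G ⧸ Γ) → ℂ) →ₗ[ℂ] ((G ⧸ Γ) → ℂ) := (2 : ℂ)⁻¹ • (1 - Lop Γ g)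
  have hP : LinearMap.IsProj (Wtwo Γ g) P := by
    refine ⟨fun v => ?_, fun v hv => ?_⟩
    · exact (Wtwo Γ g).smul_mem _ (sub_Lop_mem_Wtwo hg v)
    · rw [mem_Wtwo] at hv
      have h1 : Lop Γ g v = -v := by
        rw [eq_neg_iff_add_eq_zero, add_comm]; exact hv
      simp only [P, LinearMap.smul_apply, LinearMap.sub_apply, Module.End.one_apply, h1]
      funext q
      simp
      ring
  have h1 := hP.trace
  simp only [P, map_smul, map_sub, trace_Lop, LinearMap.trace_one,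
    Module.finrank_fintype_fun_eq_card, smul_eq_mul] at h1
  have h2 : (2 * finrank ℂ (Wtwo Γ g) + Nat.card {q : G ⧸ Γ // g • q = q} : ℂ)
      = (Fintype.card (G ⧸ Γ) : ℂ) := by
    rw [← h1]; ring
  exact_mod_cast h2

theorem fix_sq_iff {g : G} (hg : ∀ q : G ⧸ Γ, (g ^ 3) • q = q) (q : G ⧸ Γ) :
    (g ^ 2) • q = q ↔ g • q = q := by
  constructor
  · intro h
    have h1 := hg q
    rw [pow_succ', mul_smul, h] at h1
    exact h1
  · intro h
    rw [pow_two, mul_smul, h, h]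

theorem finrank_Wthree [Fintype (G ⧸ Γ)] {g : G} (hg : ∀ q : G ⧸ Γ, (g ^ 3) • q = q) :
    3 * finrank ℂ (Wthree Γ g) + 2 * Nat.card {q : G ⧸ Γ // g • q = q}
      = 2 * Fintype.card (G ⧸ Γ) := by
  let P : ((G ⧸ Γ) → ℂ) →ₗ[ℂ] ((G ⧸ Γ) → ℂ) := (3 : ℂ)⁻¹ • ((2 : ℂ) • 1 - Lop Γ g - Lop Γ (g ^ 2))
  have hP : LinearMap.IsProj (Wthree Γ g) P := by
    refine ⟨fun v => ?_, fun v hv => ?_⟩
    · apply (Wthree Γ g).smul_mem
      have h1 : ((2 : ℂ) • (1 : Module.End ℂ ((G ⧸ Γ) → ℂ)) - Lop Γ g - Lop Γ (g ^ 2)) v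
          = (v - Lop Γ g v) + (v - Lop Γ g v) + (Lop Γ g v - Lop Γ g (Lop Γ g v)) := by
        have e : ((2 : ℂ) • (1 : Module.End ℂ ((G ⧸ Γ) → ℂ)) - Lop Γ g - Lop Γ (g ^ 2)) v
            = (2 : ℂ) • v - Lop Γ g v - Lop Γ (g ^ 2) v := rfl
        rw [e, pow_two, Lop_mul, two_smul]
        abel
      rw [h1]
      exact (Wthree Γ g).add_mem ((Wthree Γ g).add_mem (sub_Lop_mem_Wthree hg v)
        (sub_Lop_mem_Wthree hg v)) (sub_Lop_mem_Wthree hg _)
    · rw [mem_Wthree] at hv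
      simp only [P, LinearMap.smul_apply, LinearMap.sub_apply, Module.End.one_apply]
      have h1 : (2 : ℂ) • v - Lop Γ g v - Lop Γ (g ^ 2) v = (3 : ℂ) • v := by
        have : (3 : ℂ) • v = (2 : ℂ) • v + v := by
          rw [show (3 : ℂ) = 2 + 1 by norm_num, add_smul, one_smul]
        rw [this]
        linear_combination (exp := 1) -hv
      rw [h1, smul_smul]
      norm_num
  have h1 := hP.trace
  have h3 : Nat.card {q : G ⧸ Γ // (g ^ 2) • q = q} = Nat.card {q : G ⧸ Γ // g • q = q} :=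
    Nat.card_congr (Equiv.subtypeEquivRight (fix_sq_iff hg))
  simp only [P, map_smul, map_sub, trace_Lop, LinearMap.trace_one,
    Module.finrank_fintype_fun_eq_card, smul_eq_mul, h3] at h1
  have h2 : (3 * finrank ℂ (Wthree Γ g) + 2 * Nat.card {q : G ⧸ Γ // g • q = q} : ℂ)
      = (2 * Fintype.card (G ⧸ Γ) : ℂ) := by
    rw [← h1]; ring
  exact_mod_cast h2

/-- invariant vectors are functions on the orbit space. -/
theorem finrank_Vinv [Finite (G ⧸ Γ)] (g : G) :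
    finrank ℂ (Vinv Γ g)
      = Nat.card (MulAction.orbitRel.Quotient (Subgroup.zpowers g) (G ⧸ Γ)) := by
  classical
  let Ω := MulAction.orbitRel.Quotient (Subgroup.zpowers g) (G ⧸ Γ)
  have : Finite Ω := Quotient.finite _
  letI : Fintype Ω := Fintype.ofFinite _
  let π : (G ⧸ Γ) → Ω := Quotient.mk _
  have hinv : ∀ (v : (G ⧸ Γ) → ℂ), v ∈ Vinv Γ g → ∀ (h : Subgroup.zpowers g) (q : G ⧸ Γ),
      v (h • q) = v q := by
    intro v hv h q
    rw [mem_Vinv, sub_eq_zero] at hv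
    have h1 : ∀ p, v (g • p) = v p := fun p => congrFun hv p
    obtain ⟨_, n, rfl⟩ := h
    change v ((g ^ n) • q) = v q
    induction n using Int.induction_on generalizing q with
    | zero => simp
    | succ n ih => rw [zpow_add_one, mul_smul, ih, h1]
    | pred n ih =>
      rw [zpow_sub_one, mul_smul, ih]
      have := h1 (g⁻¹ • q)
      rw [smul_inv_smul] at this
      exact this.symm
  let e : (Ω → ℂ) ≃ₗ[ℂ] Vinv Γ g :=
    { toFun := fun u => ⟨fun q => u (π q), by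
        rw [mem_Vinv, sub_eq_zero]
        funext q
        rw [Lop_apply]
        congr 1
        apply Quotient.sound
        exact ⟨⟨g, Subgroup.mem_zpowers g⟩, rfl⟩⟩
      map_add' := fun _ _ => rfl
      map_smul' := fun _ _ => rfl
      invFun := fun v => Quotient.lift (v : (G ⧸ Γ) → ℂ) (by
        rintro a b ⟨h, rfl⟩
        exact hinv v v.2 h b)
      left_inv := by
        intro u
        funext ω
        induction ω using Quotient.inductionOn with
        | h q => rfl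
      right_inv := by
        intro v
        apply Subtype.ext
        funext q
        rfl }
  rw [← e.finrank_eq, Module.finrank_fintype_fun_eq_card, Nat.card_eq_fintype_card]

end Fermat.Agent.S21
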