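import Fermat.Agent.S21.Period

set_option autoImplicit false

open UpperHalfPlane hiding I
open Complex Filter Function Matrix.SpecialLinearGroup CongruenceSubgroup
open scoped Manifold Topology Real MatrixGroups ModularForm Pointwise
open Fermat.Agent.S22

namespace Fermat.Agent.S21

local notation "𝕢" => Periodic.qParam

/-- maximum principle for a finite family of holomorphic functions on the unit disc. -/
theorem exists_const_of_family {ι : Type*} [Finite ι] [Nonempty ι] (φ : ι → ℂ → ℂ)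
    (hφ : ∀ i, DifferentiableOn ℂ (φ i) (Metric.ball 0 1)) {r : ℝ} (hr0 : 0 ≤ r) (hr : r < 1)
    (h : ∀ i, ∀ q ∈ Metric.ball (0 : ℂ) 1, ∃ i', ∃ q' ∈ Metric.closedBall (0 : ℂ) r,
      ‖φ i q‖ ≤ ‖φ i' q'‖) :
    ∃ i, ∃ c, Set.EqOn (φ i) (const ℂ c) (Metric.ball 0 1) := by
  have hsub : Metric.closedBall (0 : ℂ) r ⊆ Metric.ball 0 1 := Metric.closedBall_subset_ball hr
  have hmax : ∀ i, ∃ q ∈ Metric.closedBall (0 : ℂ) r,
      IsMaxOn (fun q => ‖φ i q‖) (Metric.closedBall (0 : ℂ) r) q := by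
    intro i
    apply (isCompact_closedBall (0 : ℂ) r).exists_isMaxOn
    · exact ⟨0, by simpa using hr0⟩
    · exact ((hφ i).continuousOn.mono hsub).norm
  choose Q hQ hQmax using hmax
  obtain ⟨i₀, hi₀⟩ := Finite.exists_max (fun i => ‖φ i (Q i)‖)
  refine ⟨i₀, φ i₀ (Q i₀), ?_⟩
  apply Complex.eqOn_of_isPreconnected_of_isMaxOn_norm (convex_ball (0 : ℂ) 1).isPreconnected
    Metric.isOpen_ball (hφ i₀) (hsub (hQ i₀))
  intro q hq
  obtain ⟨i', q', hq', hle⟩ := h i₀ q hq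
  exact hle.trans ((hQmax i' hq').trans (hi₀ i'))

/-- A holomorphic function on `ℍ` whose norm is invariant under a finite index subgroup `Γ` of
`SL(2,ℤ)`, all of whose `SL(2,ℤ)`-translates are periodic and bounded at `i∞`, is constant. -/
theorem const_of_norm_invariant (Γ : Subgroup SL(2, ℤ)) [Γ.FiniteIndex] (E : ℍ → ℂ)
    (hinv : ∀ γ ∈ Γ, ∀ z : ℍ, ‖E (γ • z)‖ = ‖E z‖) {M : ℝ} (hM : 0 < M)
    (hper : ∀ δ : SL(2, ℤ), Periodic ((fun z : ℍ => E (δ • z)) ∘ ofComplex) M)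
    (hhol : ∀ δ : SL(2, ℤ), MDiff (fun z : ℍ => E (δ • z)))
    (hbdd : ∀ δ : SL(2, ℤ), IsBoundedAtImInfty (fun z : ℍ => E (δ • z))) (z w : ℍ) :
    E z = E w := by
  let δ : SL(2, ℤ) ⧸ Γ → SL(2, ℤ) := fun i => (Quotient.out i)⁻¹
  have hδ : ∀ g : SL(2, ℤ), ∃ i, ∃ h ∈ Γ, g = h * δ i := by
    intro g
    obtain ⟨h, hh⟩ := QuotientGroup.mk_out_eq_mul Γ g⁻¹
    refine ⟨(g⁻¹ : SL(2, ℤ)), (h : SL(2, ℤ)), h.2, ?_⟩
    simp only [δ]
    rw [hh]
    group
  let φ : SL(2, ℤ) ⧸ Γ → ℂ → ℂ := fun i => cuspFunction M (fun z : ℍ => E (δ i • z))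
  have hφ : ∀ i, DifferentiableOn ℂ (φ i) (Metric.ball 0 1) := fun i =>
    differentiableOn_cuspFunction_ball hM (hper _) (hhol _) (hbdd _)
  have hval : ∀ i (ξ : ℍ), φ i (𝕢 M ξ) = E (δ i • ξ) := fun i ξ =>
    eq_cuspFunction (f := fun z : ℍ => E (δ i • z)) ξ hM.ne' (hper _)
  have hr : Real.exp (-π / M) < 1 := by
    rw [Real.exp_lt_one_iff]
    have : 0 < π / M := div_pos Real.pi_pos hM
    rw [neg_div]; linarith
  obtain ⟨i, c, hc⟩ := exists_const_of_family φ hφ (Real.exp_nonneg _) hr (by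
    intro i q hq
    rcases eq_or_ne q 0 with rfl | hq0
    · exact ⟨i, 0, by simpa using Real.exp_nonneg _, le_rfl⟩
    · have him := Periodic.im_invQParam_pos_of_norm_lt_one hM (mem_ball_zero_iff.mp hq) hq0
      let τ : ℍ := ⟨Periodic.invQParam M q, him⟩
      have hq1 : q = 𝕢 M τ := (Periodic.qParam_right_inv hM.ne' hq0).symm
      obtain ⟨g, hg⟩ := ModularGroup.exists_one_half_le_im_smul (δ i • τ)
      obtain ⟨i', h, hh, hgi⟩ := hδ g⁻¹
      refine ⟨i', 𝕢 M ((g • δ i • τ : ℍ) : ℂ), ?_, ?_⟩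
      · rw [mem_closedBall_zero_iff, Periodic.norm_qParam]
        apply Real.exp_le_exp.mpr
        have h1 : (1 : ℝ) / 2 ≤ ((g • δ i • τ : ℍ) : ℂ).im := hg
        rw [div_le_div_iff_of_pos_right hM]
        nlinarith [Real.pi_pos]
      · rw [hq1, hval, hval]
        have h2 : δ i • τ = h • (δ i' • (g • δ i • τ)) := by
          rw [← mul_smul h, ← hgi, inv_smul_smul]
        conv_lhs => rw [h2]
        rw [hinv h hh])
  have hconst : ∀ ξ : ℍ, E (δ i • ξ) = c := by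
    intro ξ
    rw [← hval]
    apply hc
    rw [mem_ball_zero_iff]
    exact Periodic.norm_qParam_lt_one hM ξ.2
  have h1 := hconst ((δ i)⁻¹ • z)
  have h2 := hconst ((δ i)⁻¹ • w)
  rw [smul_inv_smul] at h1 h2
  rw [h1, h2]

end Fermat.Agent.S21
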