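import Fermat.Statements.S21
import Fermat.Agent.S22.Separation

set_option autoImplicit false

open UpperHalfPlane hiding I
open Complex Filter Function Matrix.SpecialLinearGroup CongruenceSubgroup
open scoped Manifold Topology Real MatrixGroups ModularForm Pointwise
open Fermat.Agent.S22

namespace Fermat.Agent.S21

theorem sl_smul_eq (γ : SL(2, ℤ)) (z : ℍ) : γ • z = (mapGL ℝ γ) • z := rfl

/-- `prim f ∘ g` and `prim (f ∣[2] g)` differ by a constant. -/
theorem prim_smul_sub {f : ℍ → ℂ} {g : GL (Fin 2) ℝ} (hg : 0 < g.det.val)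
    (hf : Tower 1 f) (hf' : Tower 1 (f ∣[(2 : ℤ)] g)) (z w : ℍ) :
    prim f (g • z) - prim (f ∣[(2 : ℤ)] g) z = prim f (g • w) - prim (f ∣[(2 : ℤ)] g) w := by
  have h1 := Coc_eq (m := 0) hg hf hf' 0 0 z
  have h2 := Coc_eq (m := 0) hg hf hf' 0 0 w
  rw [← h2] at h1
  simpa [PhiC_zero] using h1

variable {N : ℕ} [NeZero N]

theorem prim_Gamma0_sub (f : CuspForm (Gamma0 N) 2) {γ : SL(2, ℤ)} (hγ : γ ∈ Gamma0 N) (z w : ℍ) :
    prim f (γ • z) - prim f z = prim f (γ • w) - prim f w := by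
  have := prim_smul_sub (f := (f : ℍ → ℂ)) (det_mapGL_pos γ) (tower_cuspForm f 1)
    (tower_slash f γ 1) z w
  rwa [slash_eq_self f hγ] at this

theorem tendsto_prim_smul (f : CuspForm (Gamma0 N) 2) (δ : SL(2, ℤ)) :
    Tendsto (fun w : ℍ => prim f (δ • w)) atImInfty
      (𝓝 (prim f (δ • UpperHalfPlane.I) - prim ((f : ℍ → ℂ) ∣[(2 : ℤ)] (mapGL ℝ δ)) UpperHalfPlane.I)) := by
  have h1 : ∀ w : ℍ, prim f (δ • w) = prim ((f : ℍ → ℂ) ∣[(2 : ℤ)] (mapGL ℝ δ)) w +
      (prim f (δ • UpperHalfPlane.I)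
        - prim ((f : ℍ → ℂ) ∣[(2 : ℤ)] (mapGL ℝ δ)) UpperHalfPlane.I) := by
    intro w
    have := prim_smul_sub (f := (f : ℍ → ℂ)) (det_mapGL_pos δ) (tower_cuspForm f 1)
      (tower_slash f δ 1) w UpperHalfPlane.I
    rw [sl_smul_eq, sl_smul_eq]
    linear_combination this
  have h2 : Tendsto (prim ((f : ℍ → ℂ) ∣[(2 : ℤ)] (mapGL ℝ δ))) atImInfty (𝓝 0) :=
    (tower_slash f δ 1).zero_prim
  have h3 := h2.add_const (prim f (δ • UpperHalfPlane.I)
        - prim ((f : ℍ → ℂ) ∣[(2 : ℤ)] (mapGL ℝ δ)) UpperHalfPlane.I)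
  rw [zero_add] at h3
  exact h3.congr (fun w => (h1 w).symm)

theorem hasEquivariantPrimitive (f : CuspForm (Gamma0 N) 2) :
    ModularCurve.HasEquivariantPrimitive N f (prim f) := by
  refine ⟨(tower_cuspForm f 1).isPrim, (tower_cuspForm f 1).zero_prim, ?_, ?_⟩
  · intro γ
    exact ⟨prim f ((γ : SL(2, ℤ)) • UpperHalfPlane.I) - prim f UpperHalfPlane.I,
      fun z => prim_Gamma0_sub f γ.2 z _⟩
  · intro δ
    exact ⟨_, tendsto_prim_smul f δ⟩

theorem periodMap_apply (f : CuspForm (Gamma0 N) 2) (γ : Gamma0 N) :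
    ModularCurve.periodMap N f (Additive.ofMul γ)
      = prim f ((γ : SL(2, ℤ)) • UpperHalfPlane.I) - prim f UpperHalfPlane.I := by
  obtain ⟨F₀, h₀, h⟩ := ModularCurve.periodMap_def N f (hasEquivariantPrimitive f)
  have hF : F₀ = prim f := (prim_eq h₀.1 h₀.2.1).symm
  subst hF
  rw [h]
  rfl

/-- the period map as a linear map. -/
noncomputable def periodLin (N : ℕ) [NeZero N] :
    CuspForm (Gamma0 N) 2 →ₗ[ℂ] (Additive (Gamma0 N) →+ ℂ) where
  toFun f := ModularCurve.periodMap N f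
  map_add' f g := by
    refine AddMonoidHom.ext fun γ => ?_
    obtain ⟨γ, rfl⟩ := Additive.ofMul.surjective γ
    rw [AddMonoidHom.add_apply, periodMap_apply, periodMap_apply, periodMap_apply]
    have : ((f + g : CuspForm (Gamma0 N) 2) : ℍ → ℂ) = (f : ℍ → ℂ) + g := rfl
    rw [this, prim_add (tower_cuspForm f 1) (tower_cuspForm g 1)]
    simp only [Pi.add_apply]
    ring
  map_smul' c f := by
    refine AddMonoidHom.ext fun γ => ?_
    obtain ⟨γ, rfl⟩ := Additive.ofMul.surjective γ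
    rw [RingHom.id_apply, AddMonoidHom.smul_apply, periodMap_apply, periodMap_apply]
    have : ((c • f : CuspForm (Gamma0 N) 2) : ℍ → ℂ) = c • (f : ℍ → ℂ) := by
      funext z; simp
    rw [this, prim_smul c (tower_cuspForm f 1)]
    simp only [Pi.smul_apply, smul_eq_mul]
    ring

theorem existsPeriodMapLinear (N : ℕ) [NeZero N] : ModularCurve.ExistsPeriodMapLinear N :=
  ⟨periodLin N, fun _ => rfl⟩

theorem periodHomPair_apply (f g : CuspForm (Gamma0 N) 2) (γ : Gamma0 N) :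
    ModularCurve.periodHomPair N (f, g) (Additive.ofMul γ)
      = (ModularCurve.periodMap N f (Additive.ofMul γ)
          + ModularCurve.periodMap N f (Additive.ofMul (ModularCurve.Period.jConjGamma0 N γ)))
        + (ModularCurve.periodMap N g (Additive.ofMul γ)
          - ModularCurve.periodMap N g (Additive.ofMul (ModularCurve.Period.jConjGamma0 N γ))) := by
  obtain ⟨pml, hpml, h⟩ := ModularCurve.periodHomPair_def N (existsPeriodMapLinear N)
  rw [h]
  simp [hpml]

end Fermat.Agent.S21
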